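import Fermat.Agent.S41.IharaDefs

/-!
# S41, block I-core (Ihara's lemma, arithmetic core): basic invariances, Dirichlet in the denominator
Proof: report #1173 (helper140).
-/

set_option autoImplicit false

namespace Fermat.Agent.S41.IharaCore

variable {F : Type*} [Field F]
variable {N Q ℓ : ℕ} {lam : F} {s : ℤ → ℤ → F}

theorem IsIharaSymbol.add_mul_left (h : IsIharaSymbol N Q ℓ lam s) {a c : ℤ}
    (hac : IsCoprime a c) (hNc : (N : ℤ) ∣ c) (k : ℤ) : s (a + k * c) c = s a c := by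
  induction k using Int.induction_on with
  | zero => rw [zero_mul, add_zero]
  | succ k ih =>
    have e : a + ((k : ℤ) + 1) * c = (a + (k : ℤ) * c) + c := by ring
    rw [e, h.add_left _ _ (hac.add_mul_right_left _) hNc, ih]
  | pred k ih =>
    have e : a + (-(k : ℤ)) * c = (a + (-(k : ℤ) - 1) * c) + c := by ring
    rw [← ih, e, h.add_left _ _ (hac.add_mul_right_left _) hNc]

theorem IsIharaSymbol.add_mul_right (h : IsIharaSymbol N Q ℓ lam s) {a c : ℤ}
    (hac : IsCoprime a c) (hNc : (N : ℤ) ∣ c) (k : ℤ) : s a (c + k * (N * a)) = s a c := by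
  have hcop : ∀ k : ℤ, IsCoprime a (c + k * (N * a)) := fun k => by
    have e : c + k * (N * a) = c + a * (k * N) := by ring
    rw [e]
    exact hac.add_mul_left_right _
  have hdvd : ∀ k : ℤ, (N : ℤ) ∣ c + k * (N * a) := fun k =>
    dvd_add hNc (Dvd.dvd.mul_left (dvd_mul_right _ _) _)
  induction k using Int.induction_on with
  | zero => rw [zero_mul, add_zero]
  | succ k ih =>
    have e : c + ((k : ℤ) + 1) * (N * a) = (c + (k : ℤ) * (N * a)) + N * a := by ring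
    rw [e, h.add_right _ _ (hcop _) (hdvd _), ih]
  | pred k ih =>
    have e : c + (-(k : ℤ)) * (N * a) = (c + (-(k : ℤ) - 1) * (N * a)) + N * a := by ring
    rw [← ih, e, h.add_right _ _ (hcop _) (hdvd _)]

theorem IsIharaSymbol.congr_left (h : IsIharaSymbol N Q ℓ lam s) {a a' c : ℤ}
    (hac : IsCoprime a c) (hNc : (N : ℤ) ∣ c) (haa : a ≡ a' [ZMOD c]) : s a c = s a' c := by
  obtain ⟨k, hk⟩ := haa.dvd
  have e : a' = a + k * c := by linear_combination hk
  rw [e, h.add_mul_left hac hNc]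

theorem IsIharaSymbol.congr_right (h : IsIharaSymbol N Q ℓ lam s) {a c c' : ℤ}
    (hac : IsCoprime a c) (hNc : (N : ℤ) ∣ c) (hcc : c ≡ c' [ZMOD (N * a)]) : s a c = s a c' := by
  obtain ⟨k, hk⟩ := hcc.dvd
  have e : c' = c + k * (N * a) := by linear_combination hk
  rw [e, h.add_mul_right hac hNc]

theorem IsIharaSymbol.pow_Q_mul (h : IsIharaSymbol N Q ℓ lam s) {a c : ℤ}
    (hac : IsCoprime a c) (hNc : (N : ℤ) ∣ c) (hQc : IsCoprime (Q : ℤ) c) (n : ℕ) :
    s ((Q : ℤ) ^ n * a) c = s a c := by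
  induction n with
  | zero => rw [pow_zero, one_mul]
  | succ n ih =>
    have e : (Q : ℤ) ^ (n + 1) * a = Q * ((Q : ℤ) ^ n * a) := by ring
    rw [e, h.mul_Q _ _ (IsCoprime.mul_left hQc.pow_left hac) hNc hQc, ih]

/-- Step 1: Dirichlet in the denominator. -/
theorem IsIharaSymbol.exists_prime_level (h : IsIharaSymbol N Q ℓ lam s) (hN : 0 < N)
    {a c : ℤ} (hac : IsCoprime a c) (hNc : (N : ℤ) ∣ c) (ha : (N : ℤ) ∣ a + 1) (hs : s a c ≠ 0)
    (B : ℕ) :
    ∃ (a' : ℤ) (ℓ₁ : ℕ), 1 < a' ∧ (N : ℤ) ∣ a' + 1 ∧ ℓ₁.Prime ∧ B < ℓ₁ ∧ a' < ℓ₁ ∧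
      IsCoprime a' ((N : ℤ) * ℓ₁) ∧ s a' ((N : ℤ) * ℓ₁) ≠ 0 := by
  have hN' : (N : ℤ) ≠ 0 := by exact_mod_cast hN.ne'
  -- (i) the denominator may be assumed nonzero
  obtain ⟨c₀, hc₀, hac₀, hNc₀, hs₀⟩ :
      ∃ c₀ : ℤ, c₀ ≠ 0 ∧ IsCoprime a c₀ ∧ (N : ℤ) ∣ c₀ ∧ s a c₀ ≠ 0 := by
    by_cases hc : c = 0
    · subst hc
      have ha0 : a ≠ 0 := by
        rintro rfl
        exact not_isCoprime_zero_zero hac
      refine ⟨0 + N * a, by rw [zero_add]; exact mul_ne_zero hN' ha0, ?_, ?_, ?_⟩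
      · have e : (0 : ℤ) + N * a = 0 + a * N := by ring
        rw [e]
        exact hac.add_mul_left_right _
      · rw [zero_add]
        exact dvd_mul_right _ _
      · rw [h.add_right _ _ hac hNc]
        exact hs
    · exact ⟨c, hc, hac, hNc, hs⟩
  -- (ii) the numerator may be assumed `> 1`
  set k : ℤ := (|a| + 2) * c₀ with hk
  set a' : ℤ := a + k * c₀ with ha'
  have hcc : 1 ≤ c₀ * c₀ := by
    have : 0 < c₀ * c₀ := mul_self_pos.mpr hc₀
    omega
  have ha'1 : 1 < a' := by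
    have h1 : k * c₀ = (|a| + 2) * (c₀ * c₀) := by rw [hk]; ring
    have h2 : |a| + 2 ≤ (|a| + 2) * (c₀ * c₀) :=
      le_mul_of_one_le_right (by positivity) hcc
    have h3 : -|a| ≤ a := neg_abs_le a
    rw [ha', h1]
    linarith
  have hNa' : (N : ℤ) ∣ a' + 1 := by
    have e : a' + 1 = (a + 1) + k * c₀ := by rw [ha']; ring
    rw [e]
    exact dvd_add ha (Dvd.dvd.mul_left hNc₀ _)
  have hac' : IsCoprime a' c₀ := hac₀.add_mul_right_left _
  have hs' : s a' c₀ ≠ 0 := by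
    rw [ha', h.add_mul_left hac₀ hNc₀]
    exact hs₀
  -- (iii) Dirichlet
  obtain ⟨c₁, rfl⟩ := hNc₀
  have hc₁ : IsCoprime c₁ ((a'.toNat : ℕ) : ℤ) := by
    rw [Int.toNat_of_nonneg (by omega)]
    exact hac'.symm.of_mul_left_right
  obtain ⟨p, hp, hpp, hpc⟩ := Nat.forall_exists_prime_gt_and_zmodEq (max B a'.toNat)
    (q := a'.toNat) (by omega) hc₁
  rw [Int.toNat_of_nonneg (by omega)] at hpc
  have hBp : B < p := lt_of_le_of_lt (le_max_left _ _) hp
  have hap : a' < p := by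
    have : a'.toNat < p := lt_of_le_of_lt (le_max_right _ _) hp
    omega
  have hmod : (N : ℤ) * c₁ ≡ (N : ℤ) * p [ZMOD (N * a')] := (hpc.mul_left' (c := (N : ℤ))).symm
  obtain ⟨t, ht⟩ := hmod.dvd
  refine ⟨a', p, ha'1, hNa', hpp, hBp, hap, ?_, ?_⟩
  · have e : (N : ℤ) * p = N * c₁ + a' * (N * t) := by linear_combination ht
    rw [e]
    exact hac'.add_mul_left_right _
  · rw [← h.congr_right hac' (dvd_mul_right _ _) hmod]
    exact hs'

end Fermat.Agent.S41.IharaCore
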