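import Mathlib

/-!
# S41, block I-core (Ihara's lemma, arithmetic core): coprime periods
Proof: report #1173 (helper140).
-/

set_option autoImplicit false

namespace Fermat.Agent.S41.IharaCore

theorem Periods_add_mul {α : Type*} (τ : ℕ → α) (w M : ℕ)
    (h1 : ∀ k, w ≤ k → τ (k + M) = τ k) (n k : ℕ) (hk : w ≤ k) : τ (k + n * M) = τ k := by
  induction n with
  | zero => simp
  | succ n ih =>
    have : k + (n + 1) * M = (k + n * M) + M := by ring
    rw [this, h1 _ (le_trans hk (Nat.le_add_right _ _)), ih]

theorem const_of_coprime_periods {α : Type*} (τ : ℕ → α) (w M M' : ℕ) (hMM : Nat.Coprime M M')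
    (h1 : ∀ k, w ≤ k → τ (k + M) = τ k) (h2 : ∀ k, w ≤ k → τ (k + M') = τ k) :
    ∀ k, w ≤ k → τ (k + 1) = τ k := by
  intro k hk
  -- Bezout over the integers
  have hb := Int.gcd_eq_gcd_ab M M'
  have hg : (Int.gcd (M : ℤ) (M' : ℤ)) = 1 := by
    simpa [Int.gcd_natCast_natCast] using hMM
  rw [hg] at hb
  set u := Int.gcdA M M' with hu
  set v := Int.gcdB M M' with hv
  -- `1 = M u + M' v`; shift both coefficients to be comparable natural numbers
  -- choose `t` large: `u + t M' ≥ 0`, and `t M - v ≥ 0`
  obtain ⟨t, ht1, ht2⟩ : ∃ t : ℕ, 0 ≤ u + t * (M' : ℤ) + (if M' = 0 then |u| else 0) ∧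
      0 ≤ (t : ℤ) * M - v + (if M = 0 then |v| else 0) := by
    refine ⟨(|u| + |v|).toNat, ?_, ?_⟩
    · have h0 : ((|u| + |v|).toNat : ℤ) = |u| + |v| := Int.toNat_of_nonneg (by positivity)
      rw [h0]
      split_ifs with hM'
      · subst hM'
        have := neg_abs_le u
        simp
        linarith
      · have h1' : (1 : ℤ) ≤ M' := by exact_mod_cast Nat.pos_of_ne_zero hM'
        have := neg_abs_le u
        have h3 : |u| + |v| ≤ (|u| + |v|) * (M' : ℤ) := by
          nlinarith [abs_nonneg u, abs_nonneg v]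
        have := abs_nonneg v
        linarith
    · have h0 : ((|u| + |v|).toNat : ℤ) = |u| + |v| := Int.toNat_of_nonneg (by positivity)
      rw [h0]
      split_ifs with hM
      · subst hM
        have := le_abs_self v
        simp
        linarith
      · have h1' : (1 : ℤ) ≤ M := by exact_mod_cast Nat.pos_of_ne_zero hM
        have := le_abs_self v
        have h3 : |u| + |v| ≤ (|u| + |v|) * (M : ℤ) := by
          nlinarith [abs_nonneg u, abs_nonneg v]
        have := abs_nonneg u
        linarith
  by_cases hM : M = 0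
  · subst hM
    have : M' = 1 := by simpa using hMM
    subst this
    exact h2 k hk
  by_cases hM' : M' = 0
  · subst hM'
    have : M = 1 := by simpa using hMM
    subst this
    exact h1 k hk
  simp only [hM, hM', if_false, add_zero] at ht1 ht2
  obtain ⟨U, hU⟩ := Int.eq_ofNat_of_zero_le ht1
  obtain ⟨V, hV⟩ := Int.eq_ofNat_of_zero_le ht2
  have key : k + 1 + V * M' = k + U * M := by
    have : ((k + 1 + V * M' : ℕ) : ℤ) = ((k + U * M : ℕ) : ℤ) := by
      push_cast
      rw [← hU, ← hV]
      linear_combination hb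
    exact_mod_cast this
  calc τ (k + 1) = τ (k + 1 + V * M') :=
        (Periods_add_mul τ w M' h2 V (k + 1) (le_trans hk (Nat.le_succ _))).symm
    _ = τ (k + U * M) := by rw [key]
    _ = τ k := Periods_add_mul τ w M h1 U k hk

end Fermat.Agent.S41.IharaCore
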