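import Mathlib

/-!
# S41, block I-core (Ihara's lemma, arithmetic core): quadratic reciprocity input
Proof: report #1173 (helper140).
-/

set_option autoImplicit false

namespace Fermat.Agent.S41.IharaCore

theorem pow_half_modEq_one {ℓ b : ℕ} (hℓ : ℓ.Prime) (hℓ2 : ℓ ≠ 2) (hb : b.Prime)
    (hb4 : b % 4 = 3) (hbℓ : ℓ ∣ b + 1) : (ℓ : ℤ) ^ ((b - 1) / 2) ≡ 1 [ZMOD b] := by
  have := Fact.mk hℓ
  have := Fact.mk hb
  have hb2 : b ≠ 2 := by rintro rfl; omega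
  -- `legendreSym ℓ b = legendreSym ℓ (-1)`
  have h1 : legendreSym ℓ (b : ℤ) = legendreSym ℓ (-1) := by
    rw [legendreSym.mod ℓ (b : ℤ), legendreSym.mod ℓ (-1 : ℤ)]
    congr 1
    have : (ℓ : ℤ) ∣ (b : ℤ) - (-1) := by
      have : (ℓ : ℤ) ∣ ((b + 1 : ℕ) : ℤ) := by exact_mod_cast hbℓ
      simpa using this
    have h5 : (-1 : ℤ) ≡ (b : ℤ) [ZMOD (ℓ : ℤ)] := (Int.modEq_iff_dvd).mpr this
    exact h5.symm
  have hodd : ℓ % 2 = 1 := hℓ.eq_two_or_odd.resolve_left hℓ2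
  have key : legendreSym b (ℓ : ℤ) = 1 := by
    rcases (by omega : ℓ % 4 = 1 ∨ ℓ % 4 = 3) with h4 | h4
    · rw [legendreSym.quadratic_reciprocity_one_mod_four h4 hb2, h1, legendreSym.at_neg_one hℓ2,
        ZMod.χ₄_nat_one_mod_four h4]
    · rw [legendreSym.quadratic_reciprocity_three_mod_four h4 hb4, h1, legendreSym.at_neg_one hℓ2,
        ZMod.χ₄_nat_three_mod_four h4]
      norm_num
  have h2 := legendreSym.eq_pow b (ℓ : ℤ)
  rw [key] at h2
  have h3 : (b - 1) / 2 = b / 2 := by omega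
  rw [h3, ← ZMod.intCast_eq_intCast_iff]
  push_cast
  push_cast at h2
  exact h2.symm

end Fermat.Agent.S41.IharaCore
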