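import Mathlib

/-!
# S41, block I-core (Ihara's lemma, arithmetic core): two primes with coprime half-periods
Proof: report #1173 (helper140).
-/

set_option autoImplicit false

namespace Fermat.Agent.S41.IharaCore

theorem exists_two_primes (m : ℕ) (hm : 0 < m) (x : ℤ) (hx : IsCoprime x (m : ℤ))
    (h4 : x ≡ 3 [ZMOD ((Nat.gcd 4 m : ℕ) : ℤ)])
    (hodd : ∀ r : ℕ, r.Prime → r ≠ 2 → r ∣ m → ¬ (r : ℤ) ∣ x - 1) :
    ∃ b b' : ℕ, b.Prime ∧ b'.Prime ∧ (b : ℤ) ≡ x [ZMOD (m : ℤ)] ∧ (b' : ℤ) ≡ x [ZMOD (m : ℤ)] ∧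
      b % 4 = 3 ∧ b' % 4 = 3 ∧ Nat.Coprime ((b - 1) / 2) ((b' - 1) / 2) := by
  -- Step 1: a lift `y` of `x` which is `3 mod 4`
  obtain ⟨y, k₁, k₂, hy1, hy2⟩ : ∃ y k₁ k₂ : ℤ, y = x + (m : ℤ) * k₁ ∧ y = 3 + 4 * k₂ := by
    have hb := Int.gcd_eq_gcd_ab (4 : ℤ) (m : ℤ)
    have hg : ((Nat.gcd 4 m : ℕ) : ℤ) = 4 * Int.gcdA 4 m + m * Int.gcdB 4 m := by
      rw [← hb]; rfl
    obtain ⟨t, ht⟩ := h4.symm.dvd
    rw [hg] at ht
    refine ⟨x - m * Int.gcdB 4 m * t, -(Int.gcdB 4 m * t), Int.gcdA 4 m * t, by ring, ?_⟩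
    linear_combination ht
  have hy4 : IsCoprime y 4 := ⟨-1, 1 + k₂, by rw [hy2]; ring⟩
  have hym : IsCoprime y (m : ℤ) := by
    rw [hy1]; exact hx.add_mul_left_left k₁
  have hy4m : IsCoprime y ((4 * m : ℕ) : ℤ) := by
    push_cast
    exact hy4.mul_right hym
  -- Step 2: first prime
  obtain ⟨b, -, hbp, hb⟩ := Nat.forall_exists_prime_gt_and_zmodEq 0 (q := 4 * m) (a := y)
    (by positivity) hy4m
  obtain ⟨c, hc⟩ := hb.symm.dvd
  push_cast at hc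
  have hbx : (b : ℤ) ≡ x [ZMOD (m : ℤ)] := by
    apply Int.ModEq.symm
    rw [Int.modEq_iff_dvd]
    exact ⟨4 * c + k₁, by linear_combination hc + hy1⟩
  have hb4 : b % 4 = 3 := by
    have : (b : ℤ) = 3 + 4 * (k₂ + m * c) := by linear_combination hc + hy2
    omega
  set m₁ := (b - 1) / 2 with hm₁
  have hbm₁ : b = 2 * m₁ + 1 := by omega
  have hm₁odd : m₁ % 2 = 1 := by omega
  have hcop4 : Nat.Coprime 4 m₁ := by
    have : Nat.Coprime 2 m₁ := by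
      rw [Nat.coprime_two_left]
      exact Nat.odd_iff.mpr hm₁odd
    exact Nat.Coprime.pow_left 2 this
  have hcopm : Nat.Coprime m m₁ := by
    apply Nat.coprime_of_dvd
    intro r hr hrm hrm₁
    by_cases h2 : r = 2
    · subst h2; omega
    · apply hodd r hr h2 hrm
      obtain ⟨e, he⟩ := hrm
      obtain ⟨f, hf⟩ := hrm₁
      obtain ⟨d, hd⟩ := hbx.symm.dvd
      have hbZ : (b : ℤ) = 2 * m₁ + 1 := by exact_mod_cast hbm₁
      have heZ : (m : ℤ) = r * e := by exact_mod_cast he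
      have hfZ : (m₁ : ℤ) = r * f := by exact_mod_cast hf
      refine ⟨2 * f - e * d, ?_⟩
      rw [heZ] at hd
      rw [hfZ] at hbZ
      linear_combination (-1 : ℤ) * hd + hbZ
  have hcop : Nat.Coprime (4 * m) m₁ := Nat.Coprime.mul_left hcop4 hcopm
  -- Step 3: second lift
  obtain ⟨u, v, huv⟩ := (Nat.isCoprime_iff_coprime.mpr hcop : IsCoprime ((4 * m : ℕ) : ℤ) (m₁ : ℤ))
  set y' : ℤ := y * v * m₁ + 2 * u * ((4 * m : ℕ) : ℤ) with hy'
  have hy'1 : y' = y + ((4 * m : ℕ) : ℤ) * (u * (2 - y)) := by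
    rw [hy']; linear_combination (y) * huv
  have hy'2 : y' = 2 + (m₁ : ℤ) * (v * (y - 2)) := by
    rw [hy']; linear_combination (2 : ℤ) * huv
  have h2m₁ : IsCoprime (2 : ℤ) (m₁ : ℤ) := by
    have : Nat.Coprime 2 m₁ := by
      rw [Nat.coprime_two_left]
      exact Nat.odd_iff.mpr hm₁odd
    exact_mod_cast Nat.isCoprime_iff_coprime.mpr this
  have hy'c : IsCoprime y' ((4 * m * m₁ : ℕ) : ℤ) := by
    rw [Nat.cast_mul]
    refine IsCoprime.mul_right ?_ ?_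
    · rw [hy'1]; exact hy4m.add_mul_left_left _
    · rw [hy'2]; exact h2m₁.add_mul_left_left _
  have hm₁pos : 0 < m₁ := by omega
  obtain ⟨b', -, hb'p, hb'⟩ := Nat.forall_exists_prime_gt_and_zmodEq 0 (q := 4 * m * m₁) (a := y')
    (by positivity) hy'c
  obtain ⟨c', hc'⟩ := hb'.symm.dvd
  have hb'x : (b' : ℤ) ≡ x [ZMOD (m : ℤ)] := by
    apply Int.ModEq.symm
    rw [Int.modEq_iff_dvd]
    refine ⟨4 * m₁ * c' + 4 * (u * (2 - y)) + k₁, ?_⟩
    push_cast at hc' hy'1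
    linear_combination hc' + hy'1 + hy1
  have hb'4 : b' % 4 = 3 := by
    have : (b' : ℤ) = 3 + 4 * (k₂ + m * (u * (2 - y)) + m * m₁ * c') := by
      push_cast at hc' hy'1
      linear_combination hc' + hy'1 + hy2
    omega
  refine ⟨b, b', hbp, hb'p, hbx, hb'x, hb4, hb'4, ?_⟩
  apply Nat.coprime_of_dvd
  intro r hr hr1 hr2
  obtain ⟨e, he⟩ := hr1
  obtain ⟨f, hf⟩ := hr2
  have hb'2 : b' = 2 * ((b' - 1) / 2) + 1 := by omega
  rw [hf] at hb'2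
  have hb'Z : (b' : ℤ) = 2 * (r * f) + 1 := by exact_mod_cast hb'2
  have heZ : (m₁ : ℤ) = r * e := by exact_mod_cast he
  have h1 : (r : ℤ) ∣ 1 := by
    refine ⟨2 * f - e * (4 * m * c' + v * (y - 2)), ?_⟩
    push_cast at hc'
    rw [heZ] at hc' hy'2
    linear_combination (-1 : ℤ) * hc' - hy'2 + hb'Z
  have : r ∣ 1 := by exact_mod_cast h1
  exact hr.one_lt.ne' (Nat.dvd_one.mp this)

end Fermat.Agent.S41.IharaCore
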