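import Fermat.Agent.S41.Ihara.Recurrence
import Fermat.Agent.S41.Ihara.QR
import Fermat.Agent.S41.Ihara.TwoPrimes
import Fermat.Agent.S41.Ihara.Periods

/-!
# S41, block I-core (Ihara's lemma, arithmetic core): assembly
Proof: report #1173 (helper140).
-/

set_option autoImplicit false

namespace Fermat.Agent.S41.IharaCore

variable {F : Type*} [Field F]
variable {N Q ℓ : ℕ} {lam : F} {s : ℤ → ℤ → F}

/-- Step 4: periodicity in the exponent `k`. -/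
theorem IsIharaSymbol.periodic (h : IsIharaSymbol N Q ℓ lam s) {b : ℤ} {M c₁ : ℕ}
    (hM : (ℓ : ℤ) ^ M ≡ 1 [ZMOD b]) (hb : IsCoprime b ((N : ℤ) * c₁ * ℓ)) (k : ℕ) :
    s b ((N : ℤ) * c₁ * (ℓ : ℤ) ^ (k + M)) = s b ((N : ℤ) * c₁ * (ℓ : ℤ) ^ k) := by
  have h1 : IsCoprime b ((N : ℤ) * c₁) := hb.of_mul_right_left
  have h2 : IsCoprime b (ℓ : ℤ) := hb.of_mul_right_right
  refine h.congr_right (h1.mul_right (h2.pow_right)) ⟨c₁ * (ℓ : ℤ) ^ (k + M), by ring⟩ ?_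
  have h3 : b ∣ 1 - (ℓ : ℤ) ^ M := (Int.modEq_iff_dvd).mp hM
  obtain ⟨t, ht⟩ := h3
  apply (Int.modEq_iff_dvd).mpr
  refine ⟨c₁ * (ℓ : ℤ) ^ k * t, ?_⟩
  have : (N : ℤ) * c₁ * (ℓ : ℤ) ^ k - (N : ℤ) * c₁ * (ℓ : ℤ) ^ (k + M)
      = (N : ℤ) * c₁ * (ℓ : ℤ) ^ k * (1 - (ℓ : ℤ) ^ M) := by ring
  rw [this, ht]
  ring

/-- **Ihara's lemma, arithmetic core.** -/
theorem IsIharaSymbol.eq_one_add (h : IsIharaSymbol N Q ℓ lam s) (hN : 0 < N) (hQ : 1 < Q)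
    (hQN : Nat.Coprime Q N) (hℓ : ℓ.Prime) (hℓ2 : ℓ ≠ 2) (hℓN : ¬ ℓ ∣ N) (hℓQ : ¬ ℓ ∣ Q)
    {a c : ℤ} (hac : IsCoprime a c) (hNc : (N : ℤ) ∣ c) (ha : (N : ℤ) ∣ a + 1)
    (hs : s a c ≠ 0) : lam = 1 + (ℓ : F) := by
  -- Step 1
  obtain ⟨a', ℓ₁, ha'1, hNa', hℓ₁, hB, ha'ℓ₁, hcop', hs'⟩ :=
    h.exists_prime_level hN hac hNc ha hs (2 * N * Q * ℓ)
  have hℓpos : 0 < ℓ := hℓ.pos
  have hQpos : 0 < Q := by omega
  have hNQ : 1 ≤ N * Q := Nat.mul_pos hN hQpos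
  have hℓ₁ℓ : ℓ < ℓ₁ := by
    have : ℓ ≤ 2 * N * Q * ℓ := by nlinarith
    omega
  have hℓ₁Q : Q < ℓ₁ := by
    have : Q ≤ 2 * N * Q * ℓ := by nlinarith [Nat.mul_pos hN hℓpos]
    omega
  have hℓ₁2 : 2 < ℓ₁ := by
    have : 2 ≤ 2 * N * Q * ℓ := by nlinarith [Nat.mul_pos hNQ hℓpos]
    omega
  have hℓ₁N : N < ℓ₁ := by
    have : N ≤ 2 * N * Q * ℓ := by nlinarith [Nat.mul_pos hQpos hℓpos]
    omega
  set c₀ : ℕ := N * ℓ₁ with hc₀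
  have hc₀pos : 0 < c₀ := Nat.mul_pos hN hℓ₁.pos
  have hNc₀ : N ∣ c₀ := Dvd.intro _ rfl
  have hc₀cast : (c₀ : ℤ) = (N : ℤ) * ℓ₁ := by rw [hc₀]; push_cast; ring
  have hQℓ₁ : Nat.Coprime Q ℓ₁ :=
    (Nat.Coprime.symm ((Nat.Prime.coprime_iff_not_dvd hℓ₁).mpr
      (fun hd => absurd (Nat.le_of_dvd hQpos hd) (by omega))))
  have hQℓ : Nat.Coprime Q ℓ := (Nat.Coprime.symm ((Nat.Prime.coprime_iff_not_dvd hℓ).mpr hℓQ))
  have hQc : Nat.Coprime Q (c₀ * ℓ) := (hQN.mul_right hQℓ₁).mul_right hQℓ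
  have hℓℓ₁ : Nat.Coprime ℓ ℓ₁ := (Nat.coprime_primes hℓ hℓ₁).mpr (by omega)
  have hℓc₀ : Nat.Coprime ℓ c₀ := ((Nat.Prime.coprime_iff_not_dvd hℓ).mpr hℓN).mul_right hℓℓ₁
  -- Step 2
  obtain ⟨w, hw1, hlevel⟩ := h.exists_isLevel hQ hℓ hℓ2 hc₀pos hNc₀ hQc
  -- Step 3
  obtain ⟨a₁, ha₁c₀, ha₁ℓ⟩ : ∃ a₁ : ℤ, a₁ ≡ a' [ZMOD (c₀ : ℤ)] ∧ a₁ ≡ -1 [ZMOD (ℓ : ℤ)] := by
    have hcop : IsCoprime (c₀ : ℤ) (ℓ : ℤ) := Nat.isCoprime_iff_coprime.mpr hℓc₀.symm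
    obtain ⟨u, v, huv⟩ := hcop
    refine ⟨a' * (v * ℓ) + (-1) * (u * c₀), ?_, ?_⟩
    · apply (Int.modEq_iff_dvd).mpr
      refine ⟨(a' + 1) * u, ?_⟩
      linear_combination (-a') * huv
    · apply (Int.modEq_iff_dvd).mpr
      refine ⟨-(a' + 1) * v, ?_⟩
      linear_combination huv
  have hcop'c₀ : IsCoprime a' (c₀ : ℤ) := by rw [hc₀cast]; exact hcop'
  have hNc₀' : (N : ℤ) ∣ (c₀ : ℤ) := by exact_mod_cast hNc₀
  have hsa₁ : s a₁ c₀ ≠ 0 := by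
    rw [← h.congr_left hcop'c₀ hNc₀' ha₁c₀.symm, hc₀cast]
    exact hs'
  have hcop_of_modEq : ∀ {x y m : ℤ}, x ≡ y [ZMOD m] → IsCoprime y m → IsCoprime x m := by
    intro x y m hxy hy
    obtain ⟨t, ht⟩ := (Int.modEq_iff_dvd).mp hxy
    have : x = y + m * (-t) := by linarith
    rw [this]
    exact hy.add_mul_left_left _
  have ha₁copc₀ : IsCoprime a₁ (c₀ : ℤ) := hcop_of_modEq ha₁c₀ hcop'c₀
  have ha₁copℓ : IsCoprime a₁ (ℓ : ℤ) :=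
    hcop_of_modEq ha₁ℓ (isCoprime_one_left.neg_left)
  have ha₁cop : IsCoprime a₁ ((c₀ : ℤ) * ℓ) := ha₁copc₀.mul_right ha₁copℓ
  -- Step 4
  obtain ⟨k0, x0, hk0, hx0, hsx0⟩ := h.exists_ne_zero_above hNc₀ w ha₁cop hsa₁
  have hx0cop : IsCoprime x0 ((c₀ : ℤ) * ℓ) := hcop_of_modEq hx0 ha₁cop
  have hx0c₀ : x0 ≡ a' [ZMOD (c₀ : ℤ)] := (hx0.of_mul_right _).trans ha₁c₀
  have hx0ℓ : x0 ≡ -1 [ZMOD (ℓ : ℤ)] := (hx0.of_mul_left _).trans ha₁ℓ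
  have hx0N : x0 ≡ -1 [ZMOD (N : ℤ)] := by
    have h1 : x0 ≡ a' [ZMOD (N : ℤ)] := by
      rw [hc₀cast] at hx0c₀
      exact hx0c₀.of_mul_right _
    refine h1.trans ?_
    apply (Int.modEq_iff_dvd).mpr
    obtain ⟨t, ht⟩ := hNa'
    exact ⟨-t, by linarith⟩
  have hx0ℓ₁ : x0 ≡ a' [ZMOD (ℓ₁ : ℤ)] := by
    rw [hc₀cast] at hx0c₀
    exact hx0c₀.of_mul_left _
  -- Step 5
  set m : ℕ := c₀ * ℓ ^ w with hm
  have hmpos : 0 < m := Nat.mul_pos hc₀pos (pow_pos hℓpos w)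
  have hmcast : (m : ℤ) = (c₀ : ℤ) * (ℓ : ℤ) ^ w := by rw [hm]; push_cast; ring
  have hx0m : IsCoprime x0 (m : ℤ) := by
    rw [hmcast]
    exact hx0cop.of_mul_right_left.mul_right hx0cop.of_mul_right_right.pow_right
  have hodd_of_prime : ∀ r : ℕ, r.Prime → r ≠ 2 → Nat.Coprime 4 r := by
    intro r hr hr2
    have : Nat.Coprime 2 r := (Nat.coprime_primes Nat.prime_two hr).mpr (Ne.symm hr2)
    have h4 : (4 : ℕ) = 2 ^ 2 := by norm_num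
    rw [h4]
    exact this.pow_left 2
  have hg : Nat.gcd 4 m ∣ N := by
    have h1 : Nat.Coprime (Nat.gcd 4 m) (ℓ₁ * ℓ ^ w) := by
      have h4 : Nat.Coprime 4 (ℓ₁ * ℓ ^ w) :=
        (hodd_of_prime ℓ₁ hℓ₁ (by omega)).mul_right ((hodd_of_prime ℓ hℓ hℓ2).pow_right w)
      exact Nat.Coprime.coprime_dvd_left (Nat.gcd_dvd_left 4 m) h4
    have h2 : Nat.gcd 4 m ∣ N * (ℓ₁ * ℓ ^ w) := by
      have : m = N * (ℓ₁ * ℓ ^ w) := by rw [hm, hc₀]; ring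
      rw [← this]
      exact Nat.gcd_dvd_right 4 m
    exact h1.dvd_of_dvd_mul_right h2
  have h4 : x0 ≡ 3 [ZMOD ((Nat.gcd 4 m : ℕ) : ℤ)] := by
    have h1 : x0 ≡ -1 [ZMOD ((Nat.gcd 4 m : ℕ) : ℤ)] :=
      hx0N.of_dvd (by exact_mod_cast hg)
    refine h1.trans ?_
    apply (Int.modEq_iff_dvd).mpr
    have : ((Nat.gcd 4 m : ℕ) : ℤ) ∣ ((4 : ℕ) : ℤ) := by exact_mod_cast Nat.gcd_dvd_left 4 m
    simpa using this
  have hno2 : ∀ r : ℕ, r.Prime → r ≠ 2 → x0 ≡ -1 [ZMOD (r : ℤ)] → ¬ (r : ℤ) ∣ x0 - 1 := by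
    intro r hr hr2 hx hd
    have h1 : (r : ℤ) ∣ -1 - x0 := (Int.modEq_iff_dvd).mp hx
    have h2 : (r : ℤ) ∣ ((2 : ℕ) : ℤ) := by
      have := (dvd_add h1 hd).neg_right
      simpa using (by ring_nf at this ⊢; exact this)
    have h3 : r ∣ 2 := by exact_mod_cast h2
    exact hr2 ((Nat.prime_dvd_prime_iff_eq hr Nat.prime_two).mp h3)
  have hodd : ∀ r : ℕ, r.Prime → r ≠ 2 → r ∣ m → ¬ (r : ℤ) ∣ x0 - 1 := by
    intro r hr hr2 hrm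
    rw [hm, hc₀] at hrm
    rcases (Nat.Prime.dvd_mul hr).mp hrm with h1 | h1
    · rcases (Nat.Prime.dvd_mul hr).mp h1 with h2 | h2
      · exact hno2 r hr hr2 (hx0N.of_dvd (by exact_mod_cast h2))
      · have hrℓ₁ : r = ℓ₁ := (Nat.prime_dvd_prime_iff_eq hr hℓ₁).mp h2
        subst hrℓ₁
        intro hd
        have h3 : (r : ℤ) ∣ a' - x0 := (Int.modEq_iff_dvd).mp hx0ℓ₁
        have h4 : (r : ℤ) ∣ a' - 1 := by
          have := dvd_add h3 hd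
          simpa using (by ring_nf at this ⊢; exact this)
        have := Int.le_of_dvd (by linarith) h4
        linarith
    · have hrℓ : r = ℓ := (Nat.prime_dvd_prime_iff_eq hr hℓ).mp (hr.dvd_of_dvd_pow h1)
      subst hrℓ
      exact hno2 r hr hr2 hx0ℓ
  obtain ⟨b, b', hb, hb', hbx, hb'x, hb4, hb'4, hbb'⟩ := exists_two_primes m hmpos x0 hx0m h4 hodd
  -- Step 6
  set τ : ℕ → F := fun k => s x0 ((c₀ : ℤ) * (ℓ : ℤ) ^ k) with hτ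
  have hperiod : ∀ β : ℕ, β.Prime → (β : ℤ) ≡ x0 [ZMOD (m : ℤ)] → β % 4 = 3 →
      ∀ k, w ≤ k → τ (k + (β - 1) / 2) = τ k := by
    intro β hβ hβx hβ4 k hk
    have hβx' : x0 ≡ (β : ℤ) [ZMOD ((c₀ : ℤ) * (ℓ : ℤ) ^ w)] := by
      rw [← hmcast]; exact hβx.symm
    have e1 : ∀ j, w ≤ j → τ j = s (β : ℤ) ((N : ℤ) * ℓ₁ * (ℓ : ℤ) ^ j) := by
      intro j hj
      rw [← hc₀cast]
      exact hlevel j hj x0 β hx0cop hβx'
    have hβℓ : (β : ℤ) ≡ -1 [ZMOD (ℓ : ℤ)] := by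
      have h1 : (β : ℤ) ≡ x0 [ZMOD (ℓ : ℤ)] := by
        refine hβx.of_dvd ?_
        rw [hmcast]
        exact Dvd.dvd.mul_left (dvd_pow_self _ (by omega)) _
      exact h1.trans hx0ℓ
    have hℓβ : ℓ ∣ β + 1 := by
      have h1 : (ℓ : ℤ) ∣ -1 - (β : ℤ) := (Int.modEq_iff_dvd).mp hβℓ
      have h2 : (ℓ : ℤ) ∣ ((β + 1 : ℕ) : ℤ) := by
        have := h1.neg_right
        push_cast
        simpa using (by ring_nf at this ⊢; exact this)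
      exact_mod_cast h2
    have hβcop : IsCoprime (β : ℤ) ((N : ℤ) * ℓ₁ * ℓ) := by
      rw [← hc₀cast]
      have h1 : (β : ℤ) ≡ x0 [ZMOD ((c₀ : ℤ) * ℓ)] := by
        refine hβx.of_dvd ?_
        rw [hmcast]
        exact mul_dvd_mul_left _ (dvd_pow_self _ (by omega))
      exact hcop_of_modEq h1 hx0cop
    rw [e1 _ (le_trans hk (Nat.le_add_right _ _)), e1 _ hk]
    exact h.periodic (pow_half_modEq_one hℓ hℓ2 hβ hβ4 hℓβ) hβcop k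
  -- Step 7
  have hconst := const_of_coprime_periods τ w _ _ hbb' (hperiod b hb hbx hb4)
    (hperiod b' hb' hb'x hb'4)
  have hrec := h.recurrence hNc₀ hlevel (k := k0) (by omega) hx0cop
  have t1 : τ (k0 + 1) = τ k0 := hconst k0 hk0
  have t2 : τ (k0 + 2) = τ k0 := (hconst (k0 + 1) (by omega)).trans t1
  have hrec' : lam * τ (k0 + 1) = τ k0 + (ℓ : F) * τ (k0 + 2) := hrec
  rw [t1, t2] at hrec'
  have hne : τ k0 ≠ 0 := hsx0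
  have : (lam - (1 + (ℓ : F))) * τ k0 = 0 := by linear_combination hrec'
  rcases mul_eq_zero.mp this with h0 | h0
  · linear_combination h0
  · exact absurd h0 hne

end Fermat.Agent.S41.IharaCore
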