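import Mathlib

/-!
# S41, block I-core (Ihara's lemma, arithmetic core): the Fermat quotient trick (LTE)
Proof: report #1173 (helper140).
-/

set_option autoImplicit false

namespace Fermat.Agent.S41.IharaCore

/-- powers of `Q` of exact level `c₀ℓ^k`, for all `k ≥ w` (we take `w ≥ 2`, so that no lifting
the exponent lemma is needed). -/
theorem exists_pow_eq_one_add (Q ℓ c₀ : ℕ) (hQ : 1 < Q) (hℓ : ℓ.Prime)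
    (hc₀ : 0 < c₀) (hQc : Nat.Coprime Q (c₀ * ℓ)) :
    ∃ w : ℕ, 2 ≤ w ∧ ∀ k : ℕ, w ≤ k → ∃ (N : ℕ) (z : ℤ),
      (Q : ℤ) ^ N = 1 + (c₀ : ℤ) * (ℓ : ℤ) ^ k * z ∧ ¬ (ℓ : ℤ) ∣ z := by
  have hcop : Nat.Coprime Q (c₀ * ℓ ^ 2) :=
    Nat.Coprime.mul_right (Nat.Coprime.coprime_mul_right_right hQc)
      ((Nat.Coprime.coprime_mul_left_right hQc).pow_right 2)
  have h1 : Q ^ Nat.totient (c₀ * ℓ ^ 2) ≡ 1 [MOD c₀ * ℓ ^ 2] := Nat.ModEq.pow_totient hcop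
  have hN₀ : 0 < Nat.totient (c₀ * ℓ ^ 2) :=
    Nat.totient_pos.2 (Nat.mul_pos hc₀ (pow_pos hℓ.pos 2))
  generalize Nat.totient (c₀ * ℓ ^ 2) = N₀ at h1 hN₀
  have hgt : 1 < Q ^ N₀ := Nat.one_lt_pow hN₀.ne' hQ
  obtain ⟨u, hu⟩ : c₀ * ℓ ^ 2 ∣ Q ^ N₀ - 1 := (Nat.modEq_iff_dvd' hgt.le).1 h1.symm
  have hu0 : u ≠ 0 := by
    rintro rfl
    rw [Nat.mul_zero] at hu
    omega
  obtain ⟨e, z, hz, rfl⟩ := Nat.exists_eq_pow_mul_and_not_dvd hu0 ℓ hℓ.ne_one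
  refine ⟨e + 2, by omega, ?_⟩
  intro k hk
  induction k, hk using Nat.le_induction with
  | base =>
    refine ⟨N₀, z, ?_, fun h => hz (Int.natCast_dvd_natCast.1 h)⟩
    have h2 : Q ^ N₀ = 1 + c₀ * ℓ ^ 2 * (ℓ ^ e * z) := by omega
    have h3 : ((Q ^ N₀ : ℕ) : ℤ) = ((1 + c₀ * ℓ ^ 2 * (ℓ ^ e * z) : ℕ) : ℤ) := by rw [h2]
    push_cast at h3
    rw [h3]
    ring
  | succ k hk ih =>
    obtain ⟨N, y, hN, hy⟩ := ih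
    obtain ⟨k', rfl⟩ : ∃ k', k = k' + 2 := ⟨k - 2, by omega⟩
    obtain ⟨r, hr⟩ := Polynomial.powAddExpansion (1 : ℤ) ((c₀ : ℤ) * (ℓ : ℤ) ^ (k' + 2) * y) ℓ
    refine ⟨N * ℓ, y + (ℓ : ℤ) * (y * r * c₀ * (ℓ : ℤ) ^ k' * y), ?_, ?_⟩
    · rw [pow_mul, hN, hr]
      simp only [one_pow, mul_one]
      ring
    · intro h
      exact hy ((dvd_add_left (dvd_mul_right _ _)).1 h)

/-- Step 2 (Fermat quotient trick): the powers of `Q` fill the kernel of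
`(ℤ/c₀ℓ^k)ˣ → (ℤ/c₀ℓ^w)ˣ`. -/
theorem exists_pow_mul_modEq (Q ℓ c₀ : ℕ) (hQ : 1 < Q) (hℓ : ℓ.Prime) (hℓ2 : ℓ ≠ 2)
    (hc₀ : 0 < c₀) (hQc : Nat.Coprime Q (c₀ * ℓ)) :
    ∃ w : ℕ, 1 ≤ w ∧ ∀ k : ℕ, w ≤ k → ∀ x x' : ℤ, IsCoprime x (ℓ : ℤ) →
      x ≡ x' [ZMOD ((c₀ : ℤ) * (ℓ : ℤ) ^ w)] →
      ∃ n : ℕ, (Q : ℤ) ^ n * x ≡ x' [ZMOD ((c₀ : ℤ) * (ℓ : ℤ) ^ k)] := by
  obtain ⟨w, hw, hP⟩ := exists_pow_eq_one_add Q ℓ c₀ hQ hℓ hc₀ hQc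
  refine ⟨w, by omega, ?_⟩
  intro k hk
  induction k, hk using Nat.le_induction with
  | base =>
    intro x x' _ h
    exact ⟨0, by simpa using h⟩
  | succ k hk ih =>
    intro x x' hx h
    obtain ⟨n, hn⟩ := ih x x' hx h
    obtain ⟨N, z, hN, hz⟩ := hP k hk
    obtain ⟨t, ht⟩ := Int.modEq_iff_dvd.1 hn
    have hQℓ : IsCoprime (Q : ℤ) (ℓ : ℤ) :=
      Nat.isCoprime_iff_coprime.2 (Nat.Coprime.coprime_mul_left_right hQc)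
    have hy : IsCoprime ((Q : ℤ) ^ n * x) (ℓ : ℤ) := (hQℓ.pow_left).mul_left hx
    have hzc : IsCoprime z (ℓ : ℤ) :=
      ((Nat.prime_iff_prime_int.1 hℓ).coprime_iff_not_dvd.2 hz).symm
    obtain ⟨u, v, huv⟩ := hzc.mul_left hy
    have hℓ0 : (ℓ : ℤ) ≠ 0 := by exact_mod_cast hℓ.ne_zero
    obtain ⟨j, hj⟩ : ∃ j : ℕ, (j : ℤ) = t * u - (ℓ : ℤ) * ((t * u) / (ℓ : ℤ)) :=
      ⟨((t * u) % (ℓ : ℤ)).toNat, by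
        rw [Int.toNat_of_nonneg (Int.emod_nonneg _ hℓ0), Int.emod_def]⟩
    generalize (t * u) / (ℓ : ℤ) = q at hj
    obtain ⟨k', rfl⟩ : ∃ k', k = k' + 1 := ⟨k - 1, by omega⟩
    obtain ⟨r, hr⟩ := Polynomial.powAddExpansion (1 : ℤ) ((c₀ : ℤ) * (ℓ : ℤ) ^ (k' + 1) * z) j
    refine ⟨N * j + n, ?_⟩
    rw [Int.modEq_iff_dvd]
    refine ⟨t * v + q * z * ((Q : ℤ) ^ n * x)
      - r * c₀ * (ℓ : ℤ) ^ k' * z ^ 2 * ((Q : ℤ) ^ n * x), ?_⟩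
    rw [pow_add, pow_mul, hN, hr]
    simp only [one_pow, mul_one]
    linear_combination ht - ((c₀ : ℤ) * (ℓ : ℤ) ^ (k' + 1) * z * ((Q : ℤ) ^ n * x)) * hj
      - ((c₀ : ℤ) * (ℓ : ℤ) ^ (k' + 1) * t) * huv

end Fermat.Agent.S41.IharaCore
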