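import Fermat.Agent.S41.Ihara.Basic
import Fermat.Agent.S41.Ihara.FermatQuotient

/-!
# S41, block I-core (Ihara's lemma, arithmetic core): level, recurrence, propagation of non-vanishing
Proof: report #1173 (helper140); Lean proofs by helper141.
-/

set_option autoImplicit false

namespace Fermat.Agent.S41.IharaCore

variable {F : Type*} [Field F]
variable {N Q ℓ : ℕ} {lam : F} {s : ℤ → ℤ → F}

/-- `w` is a level for `c₀`: for `k ≥ w`, `s x (c₀ ℓ^k)` only depends on `x` mod `c₀ ℓ^w`. -/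
def IsLevel (ℓ : ℕ) (s : ℤ → ℤ → F) (c₀ w : ℕ) : Prop :=
  ∀ k : ℕ, w ≤ k → ∀ x x' : ℤ, IsCoprime x ((c₀ : ℤ) * ℓ) →
    x ≡ x' [ZMOD ((c₀ : ℤ) * (ℓ : ℤ) ^ w)] →
    s x ((c₀ : ℤ) * (ℓ : ℤ) ^ k) = s x' ((c₀ : ℤ) * (ℓ : ℤ) ^ k)

theorem isCoprime_mul_pow {x c₀ l : ℤ} (hx : IsCoprime x (c₀ * l)) (k : ℕ) :
    IsCoprime x (c₀ * l ^ k) :=
  IsCoprime.mul_right (IsCoprime.of_mul_right_left hx)
    (IsCoprime.pow_right (IsCoprime.of_mul_right_right hx))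

theorem IsIharaSymbol.exists_isLevel (h : IsIharaSymbol N Q ℓ lam s) (hQ : 1 < Q)
    (hℓ : ℓ.Prime) (hℓ2 : ℓ ≠ 2) {c₀ : ℕ} (hc₀ : 0 < c₀) (hNc : N ∣ c₀)
    (hQc : Nat.Coprime Q (c₀ * ℓ)) : ∃ w : ℕ, 1 ≤ w ∧ IsLevel ℓ s c₀ w := by
  obtain ⟨w, hw1, hw⟩ := exists_pow_mul_modEq Q ℓ c₀ hQ hℓ hℓ2 hc₀ hQc
  refine ⟨w, hw1, ?_⟩
  intro k hk x x' hx hxx
  obtain ⟨n, hn⟩ := hw k hk x x' (IsCoprime.of_mul_right_right hx) hxx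
  have hxk : IsCoprime x ((c₀ : ℤ) * (ℓ : ℤ) ^ k) := isCoprime_mul_pow hx k
  have hNk : (N : ℤ) ∣ (c₀ : ℤ) * (ℓ : ℤ) ^ k :=
    Dvd.dvd.mul_right (Int.natCast_dvd_natCast.mpr hNc) _
  have hQ' : IsCoprime (Q : ℤ) ((c₀ : ℤ) * ℓ) := by
    have := Nat.isCoprime_iff_coprime.mpr hQc
    simpa using this
  have hQk : IsCoprime (Q : ℤ) ((c₀ : ℤ) * (ℓ : ℤ) ^ k) := isCoprime_mul_pow hQ' k
  have hQx : IsCoprime ((Q : ℤ) ^ n * x) ((c₀ : ℤ) * (ℓ : ℤ) ^ k) :=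
    IsCoprime.mul_left (IsCoprime.pow_left hQk) hxk
  rw [← h.pow_Q_mul hxk hNk hQk n]
  exact h.congr_left hQx hNk hn

/-- The three term recurrence above the level. -/
theorem IsIharaSymbol.recurrence (h : IsIharaSymbol N Q ℓ lam s) {c₀ w : ℕ} (hNc : N ∣ c₀)
    (hw : IsLevel ℓ s c₀ w) {k : ℕ} (hk : w ≤ k + 1) {x : ℤ} (hx : IsCoprime x ((c₀ : ℤ) * ℓ)) :
    lam * s x ((c₀ : ℤ) * (ℓ : ℤ) ^ (k + 1)) =
      s x ((c₀ : ℤ) * (ℓ : ℤ) ^ k) + (ℓ : F) * s x ((c₀ : ℤ) * (ℓ : ℤ) ^ (k + 2)) := by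
  have e1 : (ℓ : ℤ) * ((c₀ : ℤ) * (ℓ : ℤ) ^ k) = (c₀ : ℤ) * (ℓ : ℤ) ^ (k + 1) := by ring
  have e2 : (ℓ : ℤ) * ((c₀ : ℤ) * (ℓ : ℤ) ^ (k + 1)) = (c₀ : ℤ) * (ℓ : ℤ) ^ (k + 2) := by ring
  have hNk : (N : ℤ) ∣ (c₀ : ℤ) * (ℓ : ℤ) ^ k :=
    Dvd.dvd.mul_right (Int.natCast_dvd_natCast.mpr hNc) _
  have hH := h.hecke x ((c₀ : ℤ) * (ℓ : ℤ) ^ k) (by
    rw [e1]; exact isCoprime_mul_pow hx (k + 1)) hNk
  rw [e1, e2] at hH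
  rw [hH]
  congr 1
  have hsum : ∀ j ∈ Finset.range ℓ,
      s (x + (j : ℤ) * ((c₀ : ℤ) * (ℓ : ℤ) ^ (k + 1))) ((c₀ : ℤ) * (ℓ : ℤ) ^ (k + 2)) =
        s x ((c₀ : ℤ) * (ℓ : ℤ) ^ (k + 2)) := by
    intro j _
    refine (hw (k + 2) (by omega) x _ hx ?_).symm
    have hd : (c₀ : ℤ) * (ℓ : ℤ) ^ w ∣ (c₀ : ℤ) * (ℓ : ℤ) ^ (k + 1) :=
      mul_dvd_mul_left _ (pow_dvd_pow _ hk)
    have : (c₀ : ℤ) * (ℓ : ℤ) ^ w ∣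
        (x + (j : ℤ) * ((c₀ : ℤ) * (ℓ : ℤ) ^ (k + 1))) - x := by
      rw [add_sub_cancel_left]
      exact Dvd.dvd.mul_left hd _
    exact (Int.modEq_iff_dvd.mpr this)
  rw [Finset.sum_congr rfl hsum, Finset.sum_const, Finset.card_range, nsmul_eq_mul]

/-- Step 3: non-vanishing propagates upwards. -/
theorem IsIharaSymbol.exists_ne_zero_above (h : IsIharaSymbol N Q ℓ lam s) {c₀ : ℕ}
    (hNc : N ∣ c₀) (w : ℕ) {a₁ : ℤ} (ha₁ : IsCoprime a₁ ((c₀ : ℤ) * ℓ)) (hs : s a₁ c₀ ≠ 0) :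
    ∃ (k : ℕ) (x : ℤ), w ≤ k ∧ x ≡ a₁ [ZMOD ((c₀ : ℤ) * ℓ)] ∧
      s x ((c₀ : ℤ) * (ℓ : ℤ) ^ k) ≠ 0 := by
  by_contra hcon
  push Not at hcon
  -- vanishing for all `k ≥ w - d`
  have key : ∀ d k : ℕ, w ≤ k + d → ∀ x : ℤ, x ≡ a₁ [ZMOD ((c₀ : ℤ) * ℓ)] →
      s x ((c₀ : ℤ) * (ℓ : ℤ) ^ k) = 0 := by
    intro d
    induction d with
    | zero =>
      intro k hk x hx
      exact hcon k x (by omega) hx
    | succ d ih =>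
      intro k hk x hx
      have hxc : IsCoprime x ((c₀ : ℤ) * ℓ) := by
        have h1 : (c₀ : ℤ) * ℓ ∣ a₁ - x := Int.modEq_iff_dvd.mp hx
        obtain ⟨t, ht⟩ := h1
        have h2 : x = a₁ + ((c₀ : ℤ) * ℓ) * (-t) := by linarith
        rw [h2]
        exact IsCoprime.add_mul_left_left ha₁ _
      have e1 : (ℓ : ℤ) * ((c₀ : ℤ) * (ℓ : ℤ) ^ k) = (c₀ : ℤ) * (ℓ : ℤ) ^ (k + 1) := by ring
      have e2 : (ℓ : ℤ) * ((c₀ : ℤ) * (ℓ : ℤ) ^ (k + 1)) = (c₀ : ℤ) * (ℓ : ℤ) ^ (k + 2) := by ring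
      have hNk : (N : ℤ) ∣ (c₀ : ℤ) * (ℓ : ℤ) ^ k :=
        Dvd.dvd.mul_right (Int.natCast_dvd_natCast.mpr hNc) _
      have hH := h.hecke x ((c₀ : ℤ) * (ℓ : ℤ) ^ k) (by
        rw [e1]; exact isCoprime_mul_pow hxc (k + 1)) hNk
      rw [e1, e2] at hH
      rw [ih (k + 1) (by omega) x hx, mul_zero] at hH
      have hsum : ∑ j ∈ Finset.range ℓ,
          s (x + (j : ℤ) * ((c₀ : ℤ) * (ℓ : ℤ) ^ (k + 1))) ((c₀ : ℤ) * (ℓ : ℤ) ^ (k + 2)) = 0 := by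
        refine Finset.sum_eq_zero fun j _ => ih (k + 2) (by omega) _ ?_
        have hd : (c₀ : ℤ) * ℓ ∣ (c₀ : ℤ) * (ℓ : ℤ) ^ (k + 1) :=
          mul_dvd_mul_left _ (Dvd.intro_left _ (pow_succ _ _).symm)
        have h3 : x + (j : ℤ) * ((c₀ : ℤ) * (ℓ : ℤ) ^ (k + 1)) ≡ x [ZMOD ((c₀ : ℤ) * ℓ)] := by
          apply Int.ModEq.symm
          apply Int.modEq_iff_dvd.mpr
          rw [add_sub_cancel_left]
          exact Dvd.dvd.mul_left hd _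
        exact h3.trans hx
      rw [hsum, add_zero] at hH
      exact hH.symm
  apply hs
  have := key w 0 (by omega) a₁ (Int.ModEq.refl _)
  simpa using this

end Fermat.Agent.S41.IharaCore
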